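/-
ORD (S33), Spec — helper40 (ORD lead).  Compiled interfaces of ORD-PLAN v1 (report #1166).

Every brick is a `def … : Prop` (or a structure of Props); owners prove `theorem foo : Spec40.Foo`
(or the literal body) in their own files.  Nothing here is a hypothesis-free claim.

Architecture (see the plan): S33 is proved pointwise on `T` in TRACE FORM.

* `TraceIdent ρ I D σ₀`      : the trace identities (I1), (I2);
* `OrdOfIdent`   (brick A4)  : (I1) + (I2) + residual irreducibility ⇒ the Prelude's ordinarity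
                               at one place `P`;
* brick A3 is PROVED: `ORD/Alg/CHFunctional40` (CH-module + inertia-invariant functional ⇒ (I1),(I2));
* `ResidualCH`   (brick A5)  : residual CH-modules of an irreducible ordinary pseudo-character;
* `GeoData`      (chapter G) : the geometric input at level `N = M p` for one place `P ∣ p`;
* `FlatTorsion`  (from FFJ)  : the literal S19 conclusion at the good level `M`.
-/
import Mathlib
import Fermat.Prelude.Def_CuspForm_HeckeGaloisRepDatum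
import Fermat.Prelude.Def_GaloisRep_LocalConditions
import Fermat.Prelude.Def_GaloisRep_Flat
import Fermat.Prelude.Def_FLTPrelim_Ramification
import Fermat.Prelude.Def_ModularCurve_ArithmeticGalois
import Fermat.Prelude.Def_ModularCurve_HeckeModule
import Fermat.Agent.ORD.Alg.CHFunctional40

set_option autoImplicit false

noncomputable section

namespace Fermat.Agent.ORD.Spec.Spec40

open Fermat.Agent.ORD.Alg.CHFunctional40 ModularCurve

local notation "Qb" => AlgebraicClosure ℚ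
local notation "GQ" => (AlgebraicClosure ℚ ≃ₐ[ℚ] AlgebraicClosure ℚ)

/-! ### 1. The trace identities and the trace criterion (A4) -/

section Trace

variable {T : Type*} [CommRing T] {V : Type*} [AddCommGroup V] [Module T V]
  {G : Type*} [Group G]

/-- trace of a representation, as a function on the group. -/
def trOf (ρ : G →* Module.End T V) : G → T := fun g => LinearMap.trace T V (ρ g)

/-- determinant of a representation, as a monoid homomorphism. -/
def detOf (ρ : G →* Module.End T V) : G →* T := (LinearMap.det : Module.End T V →* T).comp ρ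

/-- **The trace identities** `(I1)`, `(I2)` of a representation `ρ` w.r.t. subgroups `I ≤ D` and
`σ₀ ∈ I` (`Dfun t δ σ₀ g = δ σ₀ * t g - t (g * σ₀)`, see `CHFunctional40`). -/
def TraceIdent (ρ : G →* Module.End T V) (I D : Subgroup G) (σ₀ : G) : Prop :=
  (∀ h ∈ I, trOf ρ h = 1 + detOf ρ h) ∧
    ∀ h ∈ D, ∀ g : G, (detOf ρ σ₀ - 1) * Dfun (trOf ρ) (detOf ρ) σ₀ (h * g) =
      Dfun (trOf ρ) (detOf ρ) σ₀ h * Dfun (trOf ρ) (detOf ρ) σ₀ g

end Trace

/-- **Brick A4 (`Alg/OrdOfIdent`)**: over a complete local ring, the trace identities at a place `P`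
for some `σ₀` in the inertia group with `det ρ σ₀ - 1` a unit, together with the irreducibility of
the residual representation, give the body of the Prelude's `IsOrdinaryAt` at `P`. -/
def OrdOfIdent : Prop :=
  ∀ {T : Type} [CommRing T] [IsLocalRing T] [IsNoetherianRing T]
    [IsAdicComplete (IsLocalRing.maximalIdeal T) T] (ρ : GaloisRepAdic T)
    (_hirr : ρ.residual.IsAbsolutelyIrreducible)
    (P : ValuationSubring Qb) (σ₀ : GQ) (_hσ₀ : σ₀ ∈ P.inertiaSubgroupIn ℚ)
    (_hunit : IsUnit (LinearMap.det (ρ.ρ σ₀) - 1))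
    (_hid : TraceIdent ρ.ρ (P.inertiaSubgroupIn ℚ) (P.decompositionSubgroup ℚ) σ₀),
    ∃ L : Submodule T ρ.V,
      (∃ b : Module.Basis (Fin 2) T ρ.V, L = T ∙ b 0) ∧
      (∀ σ ∈ P.decompositionSubgroup ℚ, ∀ v ∈ L, ρ.ρ σ v ∈ L) ∧
      (∀ σ ∈ P.inertiaSubgroupIn ℚ, ∀ v : ρ.V, ρ.ρ σ v - v ∈ L)

/-! ### 2. Residual CH-modules (A5) -/

/-- **Brick A5 (`Alg/ResidualCH`)**, pure algebra over a field `k`.  `(t, δ)` is a pseudo-character
satisfying the residual trace identities on `I` (they hold for the trace of an ordinary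
representation, by `CHFunctional40`) and which is NOT a sum of two characters (`hirr`, the trace
form of irreducibility); `U ≠ 0` is a CH-module for `(t, δ)`; `σ₀ ∈ I` with `δ σ₀ ≠ 1`.
Then `E' := δ σ₀ - ρ σ₀` is nonzero on `U` and `E' ∘ ρ h = E'` for `h ∈ I`; hence `μ ∘ E'` is an
`I`-invariant functional for every functional `μ`, and `σ₀` does not act on `U` as a scalar. -/
def ResidualCH : Prop :=
  ∀ {k : Type*} [Field k] {U : Type*} [AddCommGroup U] [Module k U] [Nontrivial U]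
    {G : Type*} [Group G] (ρ : G →* Module.End k U) (t : G → k) (δ : G →* k)
    (_hW : ∀ g : G, ρ g + δ g • ρ g⁻¹ = t g • (1 : Module.End k U))
    (I : Subgroup G) (σ₀ : G) (_hσ₀ : σ₀ ∈ I) (_hα : δ σ₀ ≠ 1)
    (_h1 : ∀ h ∈ I, t h = 1 + δ h)
    (_h2 : ∀ h ∈ I, ∀ g : G, (δ σ₀ - 1) * Dfun t δ σ₀ (h * g) = Dfun t δ σ₀ h * Dfun t δ σ₀ g)
    (_hirr : ¬ ∀ g g' : G, (δ σ₀ - 1) * Dfun t δ σ₀ (g * g') = Dfun t δ σ₀ g * Dfun t δ σ₀ g'),
    (∃ x : U, δ σ₀ • x - ρ σ₀ x ≠ 0) ∧
      ∀ h ∈ I, ∀ x : U, δ σ₀ • ρ h x - ρ σ₀ (ρ h x) = δ σ₀ • x - ρ σ₀ x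

/-! ### 3. The geometric input at `p ∥ N` (chapter G) -/

/-- **GeoData** at level `N` (think `N = M p`, `p ∤ M`) for one valuation subring `P` over `p`:

* `pα, pβ : J₀(N) → J₀(M)` : the two degeneracy push-forwards (any pair of Galois- and
  Hecke-equivariant additive maps will do for the algebra; (G4) is about the geometric pair);
* `J0 ⊇ J1` : think `J⁰(ℚ̄_p)` (classes specialising into the identity component of the Néron
  model) and `J₁(ℚ̄_p)` (kernel of reduction = points of the formal group);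
* (G2) `σ x - x ∈ J0` for `σ` in the inertia group and `x` of `p`-power order;
* (G3) `σ x - x ∈ J1` for `σ` in the inertia group and `x ∈ J0` of `p`-power order;
* (G4) a `p`-torsion point of `J1` killed by both pushes is multiplied by `c` by every inertia
  element acting on `μ_p` through `ζ ↦ ζ ^ c`. -/
structure GeoData (p N M : ℕ) [NeZero N] [NeZero M] (P : ValuationSubring Qb) where
  /-- the degeneracy push-forwards -/
  pα : JZero N →+ JZero M
  pβ : JZero N →+ JZero M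
  pα_galois : ∀ (σ : GQ) (x : JZero N), pα (σ • x) = σ • pα x
  pβ_galois : ∀ (σ : GQ) (x : JZero N), pβ (σ • x) = σ • pβ x
  pα_hecke : ∀ ℓ : Nat.Primes, ¬ (ℓ : ℕ) ∣ N → ∀ x : JZero N,
    pα (heckeOperatorBar N ℓ x) = heckeOperatorBar M ℓ (pα x)
  pβ_hecke : ∀ ℓ : Nat.Primes, ¬ (ℓ : ℕ) ∣ N → ∀ x : JZero N,
    pβ (heckeOperatorBar N ℓ x) = heckeOperatorBar M ℓ (pβ x)
  /-- `J⁰` and `J₁` -/
  J0 : AddSubgroup (JZero N)
  J1 : AddSubgroup (JZero N)
  G2 : ∀ σ ∈ P.inertiaSubgroupIn ℚ, ∀ (k : ℕ) (x : JZero N), p ^ k • x = 0 → σ • x - x ∈ J0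
  G3 : ∀ σ ∈ P.inertiaSubgroupIn ℚ, ∀ (k : ℕ) (x : JZero N), p ^ k • x = 0 → x ∈ J0 →
    σ • x - x ∈ J1
  G4 : ∀ x ∈ J1, p • x = 0 → pα x = 0 → pβ x = 0 →
    ∀ σ ∈ P.inertiaSubgroupIn ℚ, ∀ c : ℕ, (∀ ζ : Qb, ζ ^ p = 1 → σ ζ = ζ ^ c) → σ • x = c • x

/-- **Chapter G, final statement**: GeoData exists at every level `N = M p`, `p` odd, `p ∤ M`, for
every valuation subring over `p`. -/
def GeoStmt : Prop :=
  ∀ (p : ℕ) (_hp : p.Prime) (_hp2 : p ≠ 2) (M : ℕ) [NeZero M] (_hpM : ¬ p ∣ M)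
    (N : ℕ) [NeZero N] (_hN : N = M * p)
    (P : ValuationSubring Qb) (_hP : P.LiesOverPrime p), Nonempty (GeoData p N M P)

/-! ### 4. The input from FFJ (S19 at the good level) -/

/-- The LITERAL conclusion of the frozen S19 for (level `M`, prime `p ∤ M`), all `k`
(`= TW/FF/FlatModel68.FlatModel p (torsionBy ℤ (JZero M) (p^k)) (Galois action)`). -/
def FlatTorsion (p M : ℕ) [Fact p.Prime] [NeZero M] : Prop :=
  ∀ k : ℕ, ∃ (H : Type) (_ : CommRing H) (_ : HopfAlgebra (GaloisRep.ratLocalizedAt p) H),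
    Module.Finite (GaloisRep.ratLocalizedAt p) H ∧ Module.Flat (GaloisRep.ratLocalizedAt p) H ∧
    Coalgebra.IsCocomm (GaloisRep.ratLocalizedAt p) H ∧
    ∃ e : WithConv (H →ₐ[GaloisRep.ratLocalizedAt p] AlgebraicClosure ℚ) ≃
        ↥(Submodule.torsionBy ℤ (JZero M) ((p : ℤ) ^ k)),
      (∀ f g, e (f * g) = e f + e g) ∧
      ∀ (σ : AlgebraicClosure ℚ ≃ₐ[ℚ] AlgebraicClosure ℚ)
        (f g : WithConv (H →ₐ[GaloisRep.ratLocalizedAt p] AlgebraicClosure ℚ)),
        (∀ h : H, g h = σ (f h)) → ((e g : JZero M)) = σ • (e f : JZero M)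

/-! ### 5. The final reduction (brick Z) -/

/-- **Brick Z**: the frozen S33 from the two external inputs. -/
def S33OfInputs : Prop :=
  GeoStmt → (∀ (p : ℕ) [Fact p.Prime] (M : ℕ) [NeZero M], ¬ p ∣ M → FlatTorsion p M) →
  ∀ {p : ℕ} {N : ℕ} [NeZero N] {S : Finset ℕ}
    {𝒪 : Type} [CommRing 𝒪] [IsDomain 𝒪] [IsDiscreteValuationRing 𝒪]
    [IsAdicComplete (IsLocalRing.maximalIdeal 𝒪) 𝒪]
    {θ : CuspForm.heckeAlgebra N 2 (↑S : Set ℕ) →+* IsLocalRing.ResidueField 𝒪}
    {T : Type} [CommRing T] [IsLocalRing T] [IsNoetherianRing T]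
    [IsAdicComplete (IsLocalRing.maximalIdeal T) T] [Algebra 𝒪 T] [IsLocalHom (algebraMap 𝒪 T)]
    [Module.Finite 𝒪 T] [Module.Free 𝒪 T]
    [Finite (IsLocalRing.ResidueField 𝒪)] [CharZero 𝒪]
    (_hp : p.Prime) (_hp2 : p ≠ 2) (_hp𝒪 : (p : 𝒪) ∈ IsLocalRing.maximalIdeal 𝒪)
    (_hN : p ∣ N ∧ ¬ p ^ 2 ∣ N) (_hNS : ∀ q : ℕ, q.Prime → q ∣ N → q ∈ S)
    (H : CuspForm.HeckeGaloisRepDatum N (↑S : Set ℕ) 𝒪 θ T)
    (_hres : (GaloisRepAdic.ofResidualGaloisRep H.ρ.residual).IsOrdinaryAt p),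
    H.ρ.IsOrdinaryAt p

end Fermat.Agent.ORD.Spec.Spec40
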