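/-
ORD (S33), Spec — helper40.  `GeoDataLite`: the geometric input WITHOUT the two Hecke-equivariance
fields of `Spec40.GeoData`.

Reason (helper91, report #1406 (2)): on Tate modules, Hecke equivariance of a Galois-equivariant map
`T_p J₀(N) → T_p J₀(M)` is automatic (`ES/N35/QNewCore19.push_tT`, Eichler–Shimura at Frobenius lifts
at both levels), so brick D1 (`pushes map eigen-submodules to eigen-submodules`) only needs Galois
equivariance, and chapter G does not have to prove `pα ∘ T_ℓ = T_ℓ ∘ pα` on divisor classes.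

* `GeoDataLite`, `GeoData.toLite`, `GeoStmtLite`, `geoStmtLite_of_geoStmt`;
* `GeoDataLite.ofAux` : transfer along level pull-backs (= `Geo/LvlAbstract95.geoDataOfAux` without
  the Hecke fields);
* `functional_of_geoDataLite` : brick N1 on `GeoDataLite` (= `FunctionalOfGeoData51.functional_of_geoData`).

Brick Z consumes `GeoStmtLite`.
-/
import Mathlib
import Fermat.Agent.ORD.Spec.Spec40
import Fermat.Agent.ORD.New.FunctionalOfGeoData51

set_option autoImplicit false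
set_option linter.unusedSectionVars false

open TensorProduct

noncomputable section

namespace Fermat.Agent.ORD.Spec.GeoLite40

open Fermat.Agent.ORD.Spec.Spec40 ModularCurve Fermat.Agent.ES.J.TateModule13

local notation "Qb" => AlgebraicClosure ℚ
local notation "GQ" => (AlgebraicClosure ℚ ≃ₐ[ℚ] AlgebraicClosure ℚ)
local notation "tmap" => Fermat.Agent.ES.J.TateModule13.map

/-- `Spec40.GeoData` without the Hecke-equivariance fields. -/
structure GeoDataLite (p N M : ℕ) [NeZero N] [NeZero M] (P : ValuationSubring Qb) where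
  /-- the degeneracy push-forwards -/
  pα : JZero N →+ JZero M
  pβ : JZero N →+ JZero M
  pα_galois : ∀ (σ : GQ) (x : JZero N), pα (σ • x) = σ • pα x
  pβ_galois : ∀ (σ : GQ) (x : JZero N), pβ (σ • x) = σ • pβ x
  /-- `J⁰` and `J₁` -/
  J0 : AddSubgroup (JZero N)
  J1 : AddSubgroup (JZero N)
  G2 : ∀ σ ∈ P.inertiaSubgroupIn ℚ, ∀ (k : ℕ) (x : JZero N), p ^ k • x = 0 → σ • x - x ∈ J0
  G3 : ∀ σ ∈ P.inertiaSubgroupIn ℚ, ∀ (k : ℕ) (x : JZero N), p ^ k • x = 0 → x ∈ J0 →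
    σ • x - x ∈ J1
  G4 : ∀ x ∈ J1, p • x = 0 → pα x = 0 → pβ x = 0 →
    ∀ σ ∈ P.inertiaSubgroupIn ℚ, ∀ c : ℕ, (∀ ζ : Qb, ζ ^ p = 1 → σ ζ = ζ ^ c) → σ • x = c • x

/-- forget the Hecke fields. -/
def _root_.Fermat.Agent.ORD.Spec.Spec40.GeoData.toLite {p N M : ℕ} [NeZero N] [NeZero M]
    {P : ValuationSubring Qb} (D : GeoData p N M P) : GeoDataLite p N M P where
  pα := D.pα
  pβ := D.pβ
  pα_galois := D.pα_galois
  pβ_galois := D.pβ_galois
  J0 := D.J0
  J1 := D.J1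
  G2 := D.G2
  G3 := D.G3
  G4 := D.G4

/-- **Chapter G, final statement (lite form)**: what brick Z consumes. -/
def GeoStmtLite : Prop :=
  ∀ (p : ℕ) (_hp : p.Prime) (_hp2 : p ≠ 2) (M : ℕ) [NeZero M] (_hpM : ¬ p ∣ M)
    (N : ℕ) [NeZero N] (_hN : N = M * p)
    (P : ValuationSubring Qb) (_hP : P.LiesOverPrime p), Nonempty (GeoDataLite p N M P)

theorem geoStmtLite_of_geoStmt (h : GeoStmt) : GeoStmtLite := by
  intro p hp hp2 M _ hpM N _ hN P hP
  obtain ⟨D⟩ := h p hp hp2 M hpM N hN P hP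
  exact ⟨D.toLite⟩

section Transfer

variable {p N M N₂ M₂ : ℕ} [NeZero N] [NeZero M] [NeZero N₂] [NeZero M₂]
  {P : ValuationSubring Qb}

/-- **Transfer of GeoDataLite along level pull-backs** (cf. `Geo/LvlAbstract95.geoDataOfAux`):
`πN : J₀(N) → J₀(N₂)` Galois-equivariant and injective on `p`-torsion, `πM : J₀(M) → J₀(M₂)`,
base-change squares `G₂.pα ∘ πN = πM ∘ pα`, `G₂.pβ ∘ πN = πM ∘ pβ`. -/
def GeoDataLite.ofAux (G₂ : GeoDataLite p N₂ M₂ P)
    (πN : JZero N →+ JZero N₂) (πM : JZero M →+ JZero M₂)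
    (hπN_gal : ∀ (σ : GQ) (x : JZero N), πN (σ • x) = σ • πN x)
    (hπN_inj : ∀ x : JZero N, p • x = 0 → πN x = 0 → x = 0)
    (pα pβ : JZero N →+ JZero M)
    (pα_galois : ∀ (σ : GQ) (x : JZero N), pα (σ • x) = σ • pα x)
    (pβ_galois : ∀ (σ : GQ) (x : JZero N), pβ (σ • x) = σ • pβ x)
    (hα : ∀ x : JZero N, G₂.pα (πN x) = πM (pα x))
    (hβ : ∀ x : JZero N, G₂.pβ (πN x) = πM (pβ x)) :
    GeoDataLite p N M P where
  pα := pα
  pβ := pβ
  pα_galois := pα_galois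
  pβ_galois := pβ_galois
  J0 := G₂.J0.comap πN
  J1 := G₂.J1.comap πN
  G2 := by
    intro σ hσ k x hx
    rw [AddSubgroup.mem_comap, map_sub, hπN_gal]
    refine G₂.G2 σ hσ k (πN x) ?_
    rw [← map_nsmul, hx, map_zero]
  G3 := by
    intro σ hσ k x hx hx0
    rw [AddSubgroup.mem_comap, map_sub, hπN_gal]
    refine G₂.G3 σ hσ k (πN x) ?_ (AddSubgroup.mem_comap.mp hx0)
    rw [← map_nsmul, hx, map_zero]
  G4 := by
    intro x hx1 hpx hαx hβx σ hσ c hc
    have h1 : σ • πN x = c • πN x := by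
      refine G₂.G4 (πN x) (AddSubgroup.mem_comap.mp hx1) ?_ ?_ ?_ σ hσ c hc
      · rw [← map_nsmul, hpx, map_zero]
      · rw [hα, hαx, map_zero]
      · rw [hβ, hβx, map_zero]
    rw [← sub_eq_zero]
    refine hπN_inj _ ?_ ?_
    · have e1 : p • (σ • x) = σ • (p • x) := smul_comm p σ x
      have e2 : p • (c • x) = c • (p • x) := smul_comm p c x
      have e0 : σ • (0 : JZero N) = 0 := smul_zero (A := JZero N) σ
      rw [nsmul_sub, e1, e2, hpx, e0, nsmul_zero, sub_zero]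
    · rw [map_sub, hπN_gal, map_nsmul, h1, sub_self]

end Transfer

section N1

variable {p : ℕ} [hp : Fact p.Prime] {N M : ℕ} [NeZero N] [NeZero M]
  {A : Type*} [CommRing A] [IsDomain A] [Algebra ℤ_[p] A] [Module.Flat ℤ_[p] A] [IsLocalRing A]

/-- **Brick N1 on `GeoDataLite`** (same proof as `FunctionalOfGeoData51.functional_of_geoData`). -/
theorem functional_of_geoDataLite (P : ValuationSubring Qb) (D : GeoDataLite p N M P)
    [Module.Finite ℤ_[p] (TateModule p (JZero N))]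
    (hpA : (p : A) ∈ IsLocalRing.maximalIdeal A)
    (σ0 : GQ) (hσ0 : σ0 ∈ P.inertiaSubgroupIn ℚ) (c0 : ℕ)
    (hc0 : ∀ ζ : Qb, ζ ^ p = 1 → σ0 ζ = ζ ^ c0)
    (Λ : Submodule A (A ⊗[ℤ_[p]] TateModule p (JZero N)))
    (hstab : ∀ s ∈ P.inertiaSubgroupIn ℚ, ∀ x ∈ Λ, (rho p (JZero N) s).baseChange A x ∈ Λ)
    (hsat : ∀ x, (p : A) • x ∈ Λ → x ∈ Λ)
    (hpushα : ∀ x ∈ Λ, (tmap D.pα).baseChange A x = 0)
    (hpushβ : ∀ x ∈ Λ, (tmap D.pβ).baseChange A x = 0)
    (hns : ¬ ∀ x ∈ Λ, (rho p (JZero N) σ0).baseChange A x - (c0 : A) • x ∈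
      IsLocalRing.maximalIdeal A • Λ) :
    ∃ lam : (A ⊗[ℤ_[p]] TateModule p (JZero N)) →ₗ[A] A, (∃ x ∈ Λ, lam x ≠ 0) ∧
      ∀ s ∈ P.inertiaSubgroupIn ℚ, ∀ x ∈ Λ,
        lam ((rho p (JZero N) s).baseChange A x) = lam x :=
  Fermat.Agent.ORD.New.FunctionalOfGeoData51.exists_invariant_functional₂ hpA
    (↑(P.inertiaSubgroupIn ℚ) : Set GQ) D.J0 D.J1 D.pα D.pβ
    (fun s hs k x hx => D.G2 s hs k x hx) (fun s hs k x hx hx0 => D.G3 s hs k x hx hx0)
    σ0 hσ0 c0 (fun x hx hpx hα hβ => D.G4 x hx hpx hα hβ σ0 hσ0 c0 hc0)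
    Λ hstab hsat hpushα hpushβ hns

end N1

end Fermat.Agent.ORD.Spec.GeoLite40
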