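/-
Programme ORD (S33).  **STATUS FILE = brick Z** (helper72, integrator; board decision 6, ruling 1557).

Machine-checked end-to-end statement of the programme: `s33_of_openContracts` has literally the
conclusion of the frozen S33, from the two EXTERNAL inputs

* `GeoLite40.GeoStmtLite`   (chapter G: helper40, helper20, helper14, helper15, helper91, helper93, ...),
* `Spec40.FlatTorsion p M`  (programme FFJ: the literal S19 conclusion at the level `M = N / p`),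

and the INTERNAL contracts which are still open, the fields of `OpenContracts`:

* `eigen`    : `EigenPackageExists`  (A1 helper89 + D1 helper83): at every point `T → T ⧸ 𝔭` the two
               eigen-lattices `Λ^N ≤ A ⊗ T_p J₀(N)`, `Λ^M ≤ A ⊗ T_p J₀(M)` (`A = T ⧸ 𝔭`): Galois-stable,
               `p`-saturated, Cayley–Hamilton for `(tr, det)` of the point, `Λ^N ≠ 0`, and every
               Galois-equivariant `J₀(N) → J₀(M)` maps `Λ^N` into `Λ^M`;
* `oldPoint` : `OldPointAbstract`    (helper69, `Z/OldCase69`): `Λ^M ≠ 0` + `FlatTorsion p M` ⟹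
               `Skeleton83.PointFunctional`;
* `newPoint` : `NewPointAbstract`    (helper83, `Z/NewPoint83`): pushes of a `GeoDataLite` kill `Λ^N`
               ⟹ `Skeleton83.PointFunctional`.

Closed bricks plugged in: A0 `DetCyclo95`, A2 `PointsOfT83` (`isReduced_T`, `pt`, `trace_pt`, ...),
A2-bis `PadicFinite83` (`T ⧸ 𝔭` finite free over `ℤ_[p]`), A3 through `Skeleton83.traceIdent_pt`,
A4 `OrdOfIdentSpec92.ordOfIdent`, `InertiaCyclo91.exists_mem_inertia_sq`, `Local/Transport83`.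
(A5, A6, A7, N1, O1, O2 are closed too; they enter through the two case contracts.)

ARCHITECTURE.  Everything is done at ONE place, `P₀ = padicPlace p`; `σ₀ ∈ I_{P₀}` squares `μ_p`
(so `c₀ = 2`); the trace identities `(I1)`, `(I2)` in `T` are checked modulo every minimal prime
(`T` reduced); at a point the dichotomy `Λ^M = 0` (NEW) / `Λ^M ≠ 0` (OLD) produces a
Cayley–Hamilton module with a nonzero `I_{P₀}`-invariant functional; A4 gives ordinarity at `P₀` and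
`Transport83` at all places.
-/
import Mathlib
import Fermat.Agent.ORD.Spec.Spec40
import Fermat.Agent.ORD.Spec.GeoLite40
import Fermat.Agent.ORD.Alg.DetCyclo95
import Fermat.Agent.ORD.Alg.OrdOfIdentSpec92
import Fermat.Agent.ORD.Alg.PointsOfT83
import Fermat.Agent.ORD.Alg.PadicFinite83
import Fermat.Agent.ORD.Local.Transport83
import Fermat.Agent.ORD.Z.Skeleton83

set_option autoImplicit false
set_option linter.unusedSectionVars false
set_option linter.style.haveILetI false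

open TensorProduct

noncomputable section

namespace Fermat.Agent.ORD.Spec.Status72

open Fermat.Agent.ORD.Alg.CHFunctional40 Fermat.Agent.ORD.Spec.Spec40
open Fermat.Agent.ORD.Spec.GeoLite40 Fermat.Agent.ORD.Alg Fermat.Agent.ORD.Alg.PointsOfT83
open Fermat.Agent.ORD.Z.Skeleton83
open Fermat.Agent.TW.OrdLocal.PadicPlace97 Fermat.Agent.ORD.Local.Transport83
open Fermat.Agent.ES.J.TateModule13 ModularCurve

local notation "Qb" => AlgebraicClosure ℚ
local notation "GQ" => (AlgebraicClosure ℚ ≃ₐ[ℚ] AlgebraicClosure ℚ)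
local notation "tmap" => Fermat.Agent.ES.J.TateModule13.map

/-! ### 1. The trace identities of a pseudo-character -/

section Ident

variable {G : Type*} [Group G] {A : Type*} [CommRing A]

/-- The trace identities `(I1)`, `(I2)` for an abstract pair `(t, δ)` (trace function and determinant
character) w.r.t. subgroups `I ≤ D` and `σ₀ ∈ I`.  `Spec40.TraceIdent ρ I D σ₀` is
`IdentOf (trOf ρ) (detOf ρ) I D σ₀` (`traceIdent_iff`). -/
def IdentOf (t : G → A) (δ : G →* A) (I D : Subgroup G) (σ₀ : G) : Prop :=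
  (∀ h ∈ I, t h = 1 + δ h) ∧
    ∀ h ∈ D, ∀ g : G, (δ σ₀ - 1) * Dfun t δ σ₀ (h * g) = Dfun t δ σ₀ h * Dfun t δ σ₀ g

theorem traceIdent_iff {V : Type*} [AddCommGroup V] [Module A V] (ρ : G →* Module.End A V)
    (I D : Subgroup G) (σ₀ : G) :
    TraceIdent ρ I D σ₀ ↔ IdentOf (trOf ρ) (detOf ρ) I D σ₀ := Iff.rfl

variable {B : Type*} [CommRing B]

/-- `Dfun` commutes with ring homomorphisms. -/
theorem map_Dfun (f : A →+* B) (t : G → A) (δ : G →* A) (σ₀ g : G) :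
    f (Dfun t δ σ₀ g) = Dfun (fun g => f (t g)) ((f : A →* B).comp δ) σ₀ g := by
  simp only [Dfun, map_sub, map_mul, MonoidHom.comp_apply]
  rfl

/-- The identities are preserved by ring homomorphisms. -/
theorem IdentOf.map (f : A →+* B) {t : G → A} {δ : G →* A} {I D : Subgroup G} {σ₀ : G}
    (h : IdentOf t δ I D σ₀) :
    IdentOf (fun g => f (t g)) ((f : A →* B).comp δ) I D σ₀ := by
  refine ⟨fun x hx => ?_, fun x hx g => ?_⟩
  · show f (t x) = 1 + f (δ x)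
    rw [h.1 x hx, map_add, map_one]
  · rw [← map_Dfun, ← map_Dfun, ← map_Dfun]
    show (f (δ σ₀) - 1) * _ = _
    rw [← map_one f, ← map_sub, ← map_mul, ← map_mul, h.2 x hx g]

/-- The identities may be checked on a jointly injective family of ring homomorphisms. -/
theorem identOf_of_forall {ι : Type*} {B : ι → Type*} [∀ i, CommRing (B i)] (f : ∀ i, A →+* B i)
    (hf : ∀ x y : A, (∀ i, f i x = f i y) → x = y)
    {t : G → A} {δ : G →* A} {I D : Subgroup G} {σ₀ : G}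
    (h : ∀ i, IdentOf (fun g => f i (t g)) ((f i : A →* B i).comp δ) I D σ₀) :
    IdentOf t δ I D σ₀ := by
  refine ⟨fun x hx => hf _ _ fun i => ?_, fun x hx g => hf _ _ fun i => ?_⟩
  · have := (h i).1 x hx
    rw [map_add, map_one]
    exact this
  · have := (h i).2 x hx g
    rw [← map_Dfun, ← map_Dfun, ← map_Dfun] at this
    rw [map_mul, map_mul, map_sub, map_one]
    exact this

/-- In a reduced ring an identity may be checked modulo every minimal prime. -/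
theorem eq_of_forall_minimalPrimes [IsReduced A] (x y : A)
    (h : ∀ 𝔮 ∈ minimalPrimes A, Ideal.Quotient.mk 𝔮 x = Ideal.Quotient.mk 𝔮 y) : x = y := by
  rw [← sub_eq_zero]
  have h1 : x - y ∈ sInf (minimalPrimes A) := by
    rw [Submodule.mem_sInf]
    intro 𝔮 h𝔮
    have := h 𝔮 h𝔮
    rwa [Ideal.Quotient.eq] at this
  have h2 : sInf (minimalPrimes A) = ⊥ := by
    rw [minimalPrimes, Ideal.sInf_minimalPrimes]
    exact nilradical_eq_zero A
  rw [h2] at h1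
  exact h1

/-- **Reduction to the points**: over a reduced ring the trace identities may be checked modulo
every minimal prime. -/
theorem identOf_of_minimalPrimes [IsReduced A] {t : G → A} {δ : G →* A} {I D : Subgroup G} {σ₀ : G}
    (h : ∀ 𝔮 ∈ minimalPrimes A,
      IdentOf (fun g => Ideal.Quotient.mk 𝔮 (t g))
        ((Ideal.Quotient.mk 𝔮 : A →* A ⧸ 𝔮).comp δ) I D σ₀) :
    IdentOf t δ I D σ₀ :=
  identOf_of_forall (ι := minimalPrimes A) (B := fun 𝔮 => A ⧸ (𝔮 : Ideal A))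
    (fun 𝔮 => Ideal.Quotient.mk (𝔮 : Ideal A))
    (fun x y hxy => eq_of_forall_minimalPrimes x y fun 𝔮 h𝔮 => hxy ⟨𝔮, h𝔮⟩)
    (fun 𝔮 => h 𝔮 𝔮.2)

end Ident

/-! ### 2. Restriction of a representation to a stable submodule; CH in operator form -/

section Restrict

variable {G : Type*} [Group G] {A : Type*} [CommRing A] {W : Type*} [AddCommGroup W] [Module A W]

/-- The restriction of a representation to a stable submodule. -/
def restrictRep (R : G →* Module.End A W) (Lam : Submodule A W)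
    (hstab : ∀ g : G, ∀ w ∈ Lam, R g w ∈ Lam) : G →* Module.End A Lam where
  toFun g := (R g).restrict (hstab g)
  map_one' := by
    ext x
    simp [LinearMap.restrict_apply]
  map_mul' g h := by
    ext x
    simp [LinearMap.restrict_apply, map_mul]

@[simp]
theorem coe_restrictRep (R : G →* Module.End A W) (Lam : Submodule A W)
    (hstab : ∀ g : G, ∀ w ∈ Lam, R g w ∈ Lam) (g : G) (x : Lam) :
    ((restrictRep R Lam hstab g x : Lam) : W) = R g (x : W) := rfl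

/-- Cayley–Hamilton on a stable submodule, from the quadratic (vector) form to the operator form
`ρ g + δ g • ρ g⁻¹ = t g • 1` consumed by `CHFunctional40` (A3). -/
theorem hW_of_ch (R : G →* Module.End A W) (Lam : Submodule A W)
    (hstab : ∀ g : G, ∀ w ∈ Lam, R g w ∈ Lam) (t : G → A) (δ : G →* A)
    (hch : ∀ g : G, ∀ w ∈ Lam, R g (R g w) - t g • R g w + δ g • w = 0) (g : G) :
    restrictRep R Lam hstab g + δ g • restrictRep R Lam hstab g⁻¹ =
      t g • (1 : Module.End A Lam) := by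
  ext x
  have h := hch g (R g⁻¹ (x : W)) (hstab g⁻¹ x x.2)
  have e : R g (R g⁻¹ (x : W)) = (x : W) := by
    rw [← Module.End.mul_apply, ← map_mul, mul_inv_cancel, map_one, Module.End.one_apply]
  rw [e] at h
  simp only [LinearMap.add_apply, LinearMap.smul_apply, Module.End.one_apply, Submodule.coe_add,
    Submodule.coe_smul, coe_restrictRep]
  have h2 : R g (x : W) + δ g • R g⁻¹ (x : W) - t g • (x : W) = 0 := by
    rw [← h]; abel
  exact sub_eq_zero.mp h2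

variable {R₀ : Type*} [CommRing R₀] [Algebra R₀ A] {T₀ : Type*} [AddCommGroup T₀] [Module R₀ T₀]

/-- The base change of a representation (`g ↦ (ρ g).baseChange A`, by `rfl`). -/
def bcRep (ρ : G →* Module.End R₀ T₀) : G →* Module.End A (A ⊗[R₀] T₀) :=
  ((Module.End.baseChangeHom R₀ A T₀ : Module.End R₀ T₀ →* Module.End A (A ⊗[R₀] T₀))).comp ρ

@[simp]
theorem bcRep_apply (ρ : G →* Module.End R₀ T₀) (g : G) :
    bcRep (A := A) ρ g = (ρ g).baseChange A := rfl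

end Restrict

/-! ### 3. The open contracts -/

/-- **The eigen-package at a point** (A1 + D1).  `A` is the coefficient ring of the point (in the
application `T ⧸ 𝔭`), `(t, δ)` its trace and determinant, `N = M p` the two levels. -/
structure EigenPackage (p N M : ℕ) [Fact p.Prime] [NeZero N] [NeZero M] (A : Type) [CommRing A]
    [Algebra ℤ_[p] A] (t : GQ → A) (δ : GQ →* A) where
  /-- the eigen-lattice at level `N` -/
  LamN : Submodule A (A ⊗[ℤ_[p]] TateModule p (JZero N))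
  /-- the eigen-lattice at level `M` (w.r.t. the level-`N` eigenvalues) -/
  LamM : Submodule A (A ⊗[ℤ_[p]] TateModule p (JZero M))
  finN : Module.Finite ℤ_[p] (TateModule p (JZero N))
  finM : Module.Finite ℤ_[p] (TateModule p (JZero M))
  ne_bot : LamN ≠ ⊥
  satN : ∀ w, (p : A) • w ∈ LamN → w ∈ LamN
  satM : ∀ w, (p : A) • w ∈ LamM → w ∈ LamM
  stabN : ∀ g : GQ, ∀ w ∈ LamN, (rho p (JZero N) g).baseChange A w ∈ LamN
  stabM : ∀ g : GQ, ∀ w ∈ LamM, (rho p (JZero M) g).baseChange A w ∈ LamM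
  chN : ∀ g : GQ, ∀ w ∈ LamN,
    (rho p (JZero N) g).baseChange A ((rho p (JZero N) g).baseChange A w) -
      t g • (rho p (JZero N) g).baseChange A w + δ g • w = 0
  chM : ∀ g : GQ, ∀ w ∈ LamM,
    (rho p (JZero M) g).baseChange A ((rho p (JZero M) g).baseChange A w) -
      t g • (rho p (JZero M) g).baseChange A w + δ g • w = 0
  /-- D1: every Galois-equivariant `J₀(N) → J₀(M)` maps `Λ^N` into `Λ^M` -/
  push : ∀ f : JZero N →+ JZero M, (∀ (σ : GQ) (x : JZero N), f (σ • x) = σ • f x) →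
    ∀ w ∈ LamN, (tmap f).baseChange A w ∈ LamM

section Contracts

/-- **Contract A1 + D1** (helper89 `CHDense89`: `eigenSub p N Tbad c`, `eigenSub p M Tbad c` with
`c ℓ = χ(T_ℓ)`, `χ = PointsOfT83.chi 𝔭 H`, `Tbad ⊇ S ∪ primeFactors N`; helper83 `PushEigen83`): the
eigen-package exists at every minimal prime of `T`, for any `ℤ_[p]`-algebra structure on `T ⧸ 𝔭`. -/
def EigenPackageExists : Prop :=
  ∀ {p : ℕ} {N : ℕ} [NeZero N] {S : Finset ℕ}
    {𝒪 : Type} [CommRing 𝒪] [IsDomain 𝒪] [IsDiscreteValuationRing 𝒪]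
    [IsAdicComplete (IsLocalRing.maximalIdeal 𝒪) 𝒪]
    {θ : CuspForm.heckeAlgebra N 2 (↑S : Set ℕ) →+* IsLocalRing.ResidueField 𝒪}
    {T : Type} [CommRing T] [IsLocalRing T] [IsNoetherianRing T]
    [IsAdicComplete (IsLocalRing.maximalIdeal T) T] [Algebra 𝒪 T] [IsLocalHom (algebraMap 𝒪 T)]
    [Module.Finite 𝒪 T] [Module.Free 𝒪 T]
    [Finite (IsLocalRing.ResidueField 𝒪)] [CharZero 𝒪]
    [Fact p.Prime] (_hp𝒪 : (p : 𝒪) ∈ IsLocalRing.maximalIdeal 𝒪)
    (_hNS : ∀ q : ℕ, q.Prime → q ∣ N → q ∈ S)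
    (H : CuspForm.HeckeGaloisRepDatum N (↑S : Set ℕ) 𝒪 θ T)
    (𝔭 : Ideal T) [𝔭.IsPrime] (_h𝔭 : 𝔭 ∈ minimalPrimes T) [Algebra ℤ_[p] (T ⧸ 𝔭)]
    (M : ℕ) [NeZero M] (_hNM : N = M * p),
    Nonempty (EigenPackage p N M (T ⧸ 𝔭) (trPt 𝔭 H) (detPt 𝔭 H))

/-- **Contract OLD** (helper69, `Z/OldCase69.pointFunctional_old`, report 1591; at `P₀`): a nonzero
`p`-saturated Galois-stable Cayley–Hamilton lattice at the good level `M` gives the per-point
functional, from the S19 conclusion at level `M`. -/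
def OldPointAbstract : Prop :=
  ∀ {p : ℕ} {N : ℕ} [NeZero N] {S : Finset ℕ}
    {𝒪 : Type} [CommRing 𝒪] [IsDomain 𝒪] [IsDiscreteValuationRing 𝒪]
    [IsAdicComplete (IsLocalRing.maximalIdeal 𝒪) 𝒪]
    {θ : CuspForm.heckeAlgebra N 2 (↑S : Set ℕ) →+* IsLocalRing.ResidueField 𝒪}
    {T : Type} [CommRing T] [IsLocalRing T] [IsNoetherianRing T]
    [IsAdicComplete (IsLocalRing.maximalIdeal T) T] [Algebra 𝒪 T] [IsLocalHom (algebraMap 𝒪 T)]
    [Module.Finite 𝒪 T] [Module.Free 𝒪 T]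
    [Finite (IsLocalRing.ResidueField 𝒪)] [CharZero 𝒪]
    [Fact p.Prime] (_hp2 : p ≠ 2) (_hp𝒪 : (p : 𝒪) ∈ IsLocalRing.maximalIdeal 𝒪)
    (H : CuspForm.HeckeGaloisRepDatum N (↑S : Set ℕ) 𝒪 θ T)
    (_hres : (GaloisRepAdic.ofResidualGaloisRep H.ρ.residual).IsOrdinaryAt p)
    (𝔭 : Ideal T) [𝔭.IsPrime] (_h𝔭 : 𝔭 ∈ minimalPrimes T)
    [Algebra ℤ_[p] (T ⧸ 𝔭)] [Module.Finite ℤ_[p] (T ⧸ 𝔭)] [Module.Free ℤ_[p] (T ⧸ 𝔭)]
    {M : ℕ} [NeZero M] (_hflat : FlatTorsion p M)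
    [Module.Finite ℤ_[p] (TateModule p (JZero M))]
    (Lam : Submodule (T ⧸ 𝔭) ((T ⧸ 𝔭) ⊗[ℤ_[p]] TateModule p (JZero M))) (_hne : Lam ≠ ⊥)
    (_hsat : ∀ w, (p : T ⧸ 𝔭) • w ∈ Lam → w ∈ Lam)
    (ρL : GQ →* Module.End (T ⧸ 𝔭) Lam)
    (_hcoe : ∀ (g : GQ) (x : Lam),
      ((ρL g x : Lam) : (T ⧸ 𝔭) ⊗[ℤ_[p]] TateModule p (JZero M)) =
        (rho p (JZero M) g).baseChange (T ⧸ 𝔭) x)
    (_hW : ∀ g : GQ, ρL g + detPt 𝔭 H g • ρL g⁻¹ = trPt 𝔭 H g • (1 : Module.End (T ⧸ 𝔭) Lam)),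
    PointFunctional 𝔭 H (padicPlace p)

/-- **Contract NEW** (helper83, `Z/NewPoint83`, report 1564 (1); at `P₀`): a nonzero `p`-saturated
Galois-stable Cayley–Hamilton lattice at level `N` killed by the two pushes of a `GeoDataLite` at
`P₀` gives the per-point functional. -/
def NewPointAbstract : Prop :=
  ∀ {p : ℕ} {N : ℕ} [NeZero N] {S : Finset ℕ}
    {𝒪 : Type} [CommRing 𝒪] [IsDomain 𝒪] [IsDiscreteValuationRing 𝒪]
    [IsAdicComplete (IsLocalRing.maximalIdeal 𝒪) 𝒪]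
    {θ : CuspForm.heckeAlgebra N 2 (↑S : Set ℕ) →+* IsLocalRing.ResidueField 𝒪}
    {T : Type} [CommRing T] [IsLocalRing T] [IsNoetherianRing T]
    [IsAdicComplete (IsLocalRing.maximalIdeal T) T] [Algebra 𝒪 T] [IsLocalHom (algebraMap 𝒪 T)]
    [Module.Finite 𝒪 T] [Module.Free 𝒪 T]
    [Finite (IsLocalRing.ResidueField 𝒪)] [CharZero 𝒪]
    [Fact p.Prime] (_hp2 : p ≠ 2) (_hp𝒪 : (p : 𝒪) ∈ IsLocalRing.maximalIdeal 𝒪)
    (H : CuspForm.HeckeGaloisRepDatum N (↑S : Set ℕ) 𝒪 θ T)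
    (_hres : (GaloisRepAdic.ofResidualGaloisRep H.ρ.residual).IsOrdinaryAt p)
    (𝔭 : Ideal T) [𝔭.IsPrime] (_h𝔭 : 𝔭 ∈ minimalPrimes T)
    [Algebra ℤ_[p] (T ⧸ 𝔭)] [Module.Finite ℤ_[p] (T ⧸ 𝔭)] [Module.Free ℤ_[p] (T ⧸ 𝔭)]
    {M : ℕ} [NeZero M] (D : GeoDataLite p N M (padicPlace p))
    [Module.Finite ℤ_[p] (TateModule p (JZero N))]
    (Lam : Submodule (T ⧸ 𝔭) ((T ⧸ 𝔭) ⊗[ℤ_[p]] TateModule p (JZero N))) (_hne : Lam ≠ ⊥)
    (_hsat : ∀ w, (p : T ⧸ 𝔭) • w ∈ Lam → w ∈ Lam)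
    (ρL : GQ →* Module.End (T ⧸ 𝔭) Lam)
    (_hcoe : ∀ (g : GQ) (x : Lam),
      ((ρL g x : Lam) : (T ⧸ 𝔭) ⊗[ℤ_[p]] TateModule p (JZero N)) =
        (rho p (JZero N) g).baseChange (T ⧸ 𝔭) x)
    (_hW : ∀ g : GQ, ρL g + detPt 𝔭 H g • ρL g⁻¹ = trPt 𝔭 H g • (1 : Module.End (T ⧸ 𝔭) Lam))
    (_hpushα : ∀ x ∈ Lam, (tmap D.pα).baseChange (T ⧸ 𝔭) x = 0)
    (_hpushβ : ∀ x ∈ Lam, (tmap D.pβ).baseChange (T ⧸ 𝔭) x = 0),
    PointFunctional 𝔭 H (padicPlace p)

/-- The internal contracts of programme ORD which are still open. -/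
structure OpenContracts : Prop where
  /-- A1 (helper89) + D1 (helper83) -/
  eigen : EigenPackageExists
  /-- the OLD point (helper69) -/
  oldPoint : OldPointAbstract
  /-- the NEW point (helper83) -/
  newPoint : NewPointAbstract

end Contracts

/-! ### 4. The assembly -/

section Assembly

variable {p : ℕ} {N : ℕ} [NeZero N] {S : Finset ℕ}
  {𝒪 : Type} [CommRing 𝒪] [IsDomain 𝒪] [IsDiscreteValuationRing 𝒪]
  [IsAdicComplete (IsLocalRing.maximalIdeal 𝒪) 𝒪]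
  {θ : CuspForm.heckeAlgebra N 2 (↑S : Set ℕ) →+* IsLocalRing.ResidueField 𝒪}
  {T : Type} [CommRing T] [IsLocalRing T] [IsNoetherianRing T]
  [IsAdicComplete (IsLocalRing.maximalIdeal T) T] [Algebra 𝒪 T] [IsLocalHom (algebraMap 𝒪 T)]
  [Module.Finite 𝒪 T] [Module.Free 𝒪 T]

/-- **The dichotomy at a point**: `Λ^M = 0` (NEW point) or `Λ^M ≠ 0` (OLD point). -/
theorem pointFunctional_of_openContracts (hO : OpenContracts)
    [Finite (IsLocalRing.ResidueField 𝒪)] [CharZero 𝒪]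
    [Fact p.Prime] (hp2 : p ≠ 2) (hp𝒪 : (p : 𝒪) ∈ IsLocalRing.maximalIdeal 𝒪)
    (hNS : ∀ q : ℕ, q.Prime → q ∣ N → q ∈ S)
    (H : CuspForm.HeckeGaloisRepDatum N (↑S : Set ℕ) 𝒪 θ T)
    (hres : (GaloisRepAdic.ofResidualGaloisRep H.ρ.residual).IsOrdinaryAt p)
    (𝔭 : Ideal T) [𝔭.IsPrime] (h𝔭 : 𝔭 ∈ minimalPrimes T)
    [Algebra ℤ_[p] (T ⧸ 𝔭)] [Module.Finite ℤ_[p] (T ⧸ 𝔭)] [Module.Free ℤ_[p] (T ⧸ 𝔭)]
    (M : ℕ) [NeZero M] (hNM : N = M * p)
    (D : GeoDataLite p N M (padicPlace p)) (hflat : FlatTorsion p M) :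
    PointFunctional 𝔭 H (padicPlace p) := by
  obtain ⟨pkg⟩ := hO.eigen hp𝒪 hNS H 𝔭 h𝔭 M hNM
  haveI := pkg.finN
  haveI := pkg.finM
  by_cases hM : pkg.LamM = ⊥
  · -- NEW point: the pushes kill `Λ^N`
    have hα : ∀ x ∈ pkg.LamN, (tmap D.pα).baseChange (T ⧸ 𝔭) x = 0 := by
      intro x hx
      have h := pkg.push D.pα D.pα_galois x hx
      rw [hM] at h
      exact (Submodule.mem_bot _).mp h
    have hβ : ∀ x ∈ pkg.LamN, (tmap D.pβ).baseChange (T ⧸ 𝔭) x = 0 := by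
      intro x hx
      have h := pkg.push D.pβ D.pβ_galois x hx
      rw [hM] at h
      exact (Submodule.mem_bot _).mp h
    exact hO.newPoint hp2 hp𝒪 H hres 𝔭 h𝔭 D pkg.LamN pkg.ne_bot pkg.satN
      (restrictRep (bcRep (A := T ⧸ 𝔭) (rho p (JZero N))) pkg.LamN pkg.stabN)
      (fun g x => rfl)
      (hW_of_ch (bcRep (A := T ⧸ 𝔭) (rho p (JZero N))) pkg.LamN pkg.stabN (trPt 𝔭 H) (detPt 𝔭 H)
        pkg.chN)
      hα hβ
  · -- OLD point
    exact hO.oldPoint hp2 hp𝒪 H hres 𝔭 h𝔭 hflat pkg.LamM hM pkg.satM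
      (restrictRep (bcRep (A := T ⧸ 𝔭) (rho p (JZero M))) pkg.LamM pkg.stabM)
      (fun g x => rfl)
      (hW_of_ch (bcRep (A := T ⧸ 𝔭) (rho p (JZero M))) pkg.LamM pkg.stabM (trPt 𝔭 H) (detPt 𝔭 H)
        pkg.chM)

/-- The trace identities at a point, in the `T ⧸ 𝔭`-valued trace form, from `PointFunctional`
(A3 through `Skeleton83.traceIdent_pt`). -/
theorem identOf_of_pointFunctional
    (H : CuspForm.HeckeGaloisRepDatum N (↑S : Set ℕ) 𝒪 θ T) (𝔭 : Ideal T) [𝔭.IsPrime]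
    (P : ValuationSubring Qb) (hpt : PointFunctional 𝔭 H P) (σ₀ : GQ)
    (hσ₀ : σ₀ ∈ P.inertiaSubgroupIn ℚ) :
    IdentOf (fun g => Ideal.Quotient.mk 𝔭 (trOf H.ρ.ρ g))
      ((Ideal.Quotient.mk 𝔭 : T →* T ⧸ 𝔭).comp (detOf H.ρ.ρ))
      (P.inertiaSubgroupIn ℚ) (P.decompositionSubgroup ℚ) σ₀ := by
  have e1 : (fun g => Ideal.Quotient.mk 𝔭 (trOf H.ρ.ρ g)) = trPt 𝔭 H := by
    funext g
    exact (trPt_eq 𝔭 H g).symm
  have e2 : ((Ideal.Quotient.mk 𝔭 : T →* T ⧸ 𝔭).comp (detOf H.ρ.ρ)) = detPt 𝔭 H := by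
    ext g
    exact (detPt_eq 𝔭 H g).symm
  rw [e1, e2]
  obtain ⟨h1, h2⟩ := traceIdent_pt 𝔭 H P hpt
  exact ⟨h1, fun h hh g => h2 σ₀ hσ₀ h hh g⟩

/-- For `p` odd there is `σ₀` in the inertia group of any place over `p` which squares the `p`-th
roots of unity; then `det ρ σ₀ - 1` is a unit (A0 + `exists_mem_inertia_sq`). -/
theorem exists_inertia_det_sub_one_isUnit (hp : p.Prime) (hp2 : p ≠ 2)
    (hp𝒪 : (p : 𝒪) ∈ IsLocalRing.maximalIdeal 𝒪)
    (H : CuspForm.HeckeGaloisRepDatum N (↑S : Set ℕ) 𝒪 θ T)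
    (P : ValuationSubring Qb) (hP : P.LiesOverPrime p) :
    ∃ σ₀ ∈ P.inertiaSubgroupIn ℚ, (∀ η : Qb, η ^ p = 1 → σ₀ η = η ^ 2) ∧
      IsUnit (LinearMap.det (H.ρ.ρ σ₀) - 1) := by
  obtain ⟨σ0, hσ0, hσ0μ⟩ :=
    Fermat.Agent.ES.GAL.InertiaCyclo91.exists_mem_inertia_sq hp hp2 P hP 1
  have hdet := Fermat.Agent.ORD.Alg.DetCyclo95.detIsCyclotomic hp hp𝒪 H
  have hd := hdet.2 1 σ0 2 hσ0μ
  have hd' : LinearMap.det (H.ρ.ρ σ0) - 2 ∈ IsLocalRing.maximalIdeal T := by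
    have h2 : Ideal.span {((p ^ 1 : ℕ) : T)} ≤ IsLocalRing.maximalIdeal T := by
      rw [Ideal.span_le, Set.singleton_subset_iff, pow_one]
      exact hdet.1
    have h3 := h2 hd
    rwa [Nat.cast_ofNat] at h3
  refine ⟨σ0, hσ0, fun η hη => hσ0μ η (by rwa [pow_one]), ?_⟩
  have e : LinearMap.det (H.ρ.ρ σ0) - 1 = 1 + (LinearMap.det (H.ρ.ρ σ0) - 2) := by ring
  rw [e]
  exact Fermat.Agent.ORD.FlatOrd.HenselSplit68.isUnit_add_of_mem isUnit_one hd'

/-- **S33 from the open contracts and the two external inputs.**  The conclusion is literally the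
frozen S33. -/
theorem s33_of_openContracts (hO : OpenContracts) (hgeo : GeoStmtLite)
    (hflat : ∀ (p : ℕ) [Fact p.Prime] (M : ℕ) [NeZero M], ¬ p ∣ M → FlatTorsion p M)
    [Finite (IsLocalRing.ResidueField 𝒪)] [CharZero 𝒪]
    (hp : p.Prime) (hp2 : p ≠ 2) (hp𝒪 : (p : 𝒪) ∈ IsLocalRing.maximalIdeal 𝒪)
    (hN : p ∣ N ∧ ¬ p ^ 2 ∣ N) (hNS : ∀ q : ℕ, q.Prime → q ∣ N → q ∈ S)
    (H : CuspForm.HeckeGaloisRepDatum N (↑S : Set ℕ) 𝒪 θ T)
    (hres : (GaloisRepAdic.ofResidualGaloisRep H.ρ.residual).IsOrdinaryAt p) :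
    H.ρ.IsOrdinaryAt p := by
  haveI : Fact p.Prime := ⟨hp⟩
  -- the level `M = N / p`
  obtain ⟨M, hM⟩ := hN.1
  have hNM : N = M * p := by rw [hM, mul_comm]
  have hM0 : M ≠ 0 := by
    rintro rfl
    exact NeZero.ne N (by rw [hNM, zero_mul])
  haveI : NeZero M := ⟨hM0⟩
  have hpM : ¬ p ∣ M := by
    rintro ⟨k, rfl⟩
    exact hN.2 ⟨k, by rw [hM]; ring⟩
  -- the external inputs at `P₀`
  obtain ⟨D⟩ := hgeo p hp hp2 M hpM N hNM (padicPlace p) (padicPlace_liesOverPrime p)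
  have hfl : FlatTorsion p M := hflat p M hpM
  haveI : IsReduced T := isReduced_T hNS H
  obtain ⟨σ₀, hσ₀, _, hunit⟩ := exists_inertia_det_sub_one_isUnit hp hp2 hp𝒪 H (padicPlace p)
    (padicPlace_liesOverPrime p)
  -- the trace identities in `T`, checked on the points
  have hid : TraceIdent H.ρ.ρ ((padicPlace p).inertiaSubgroupIn ℚ)
      ((padicPlace p).decompositionSubgroup ℚ) σ₀ := by
    refine identOf_of_minimalPrimes fun 𝔮 h𝔮 => ?_
    haveI : 𝔮.IsPrime := RedT83.isPrime_of_mem_minimalPrimes h𝔮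
    letI : Algebra ℤ_[p] (T ⧸ 𝔮) :=
      ((algebraMap 𝒪 (T ⧸ 𝔮)).comp (Fermat.Agent.ES.J.PadicAlg8.padicToLocal p hp𝒪)).toAlgebra
    haveI : Module.Finite ℤ_[p] (T ⧸ 𝔮) := PadicFinite83.finite_padic_quot 𝔮 hp𝒪
    haveI : Module.Free ℤ_[p] (T ⧸ 𝔮) := PadicFinite83.free_padic_quot 𝔮 h𝔮 hp𝒪
    exact identOf_of_pointFunctional H 𝔮 (padicPlace p)
      (pointFunctional_of_openContracts hO hp2 hp𝒪 hNS H hres 𝔮 h𝔮 M hNM D hfl) σ₀ hσ₀
  -- A4 at the place `P₀`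
  have hord : OrdAt H.ρ.ρ (padicPlace p) :=
    Fermat.Agent.ORD.Alg.OrdOfIdentSpec92.ordOfIdent H.ρ H.residual_absIrr (padicPlace p) σ₀ hσ₀
      hunit hid
  -- transport to all places
  exact (isOrdinaryAt_iff H.ρ p).2 ((ordAt_padicPlace_iff H.ρ.ρ p).1 hord)

/-- **Brick Z from the open contracts** in the literal form `Spec40.S33OfInputs`. -/
theorem s33OfInputs_of_openContracts (hO : OpenContracts) : S33OfInputs := by
  intro hgeo hflat p N _ S 𝒪 _ _ _ _ θ T _ _ _ _ _ _ _ _ _ _ hp hp2 hp𝒪 hN hNS H hres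
  exact s33_of_openContracts hO (geoStmtLite_of_geoStmt hgeo) hflat hp hp2 hp𝒪 hN hNS H hres

end Assembly

end Fermat.Agent.ORD.Spec.Status72
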