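/-
Programme ORD (S33).  **FINAL STATUS FILE** (helper72, integrator; brick Z).

`Spec/Status72` reduced the frozen S33 to three contracts; two of them (`oldPoint`, `newPoint`) were
closed in `Z/Contracts83` (helper83, helper69).  This file composes everything which is on main:

* `flatTorsion_of_ffj` : `Spec40.FlatTorsion p M` at every level prime to `p` from the open contracts
  of programme FFJ (`FFJ/Spec/Status72.s19_of_openContracts`);
* `s33_of_remaining`   : the literal conclusion of the frozen S33 from the THREE remaining inputs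
    - `Status72.EigenPackageExists`   (A1 helper89 + D1 helper83),
    - `GeoLite40.GeoStmtLite`         (chapter G, helper40 and team),
    - `FFJ.Spec.Status72.OpenContracts` (programme FFJ = chapter GEO of S19).
-/
import Mathlib
import Fermat.Agent.ORD.Z.Contracts83
import Fermat.Agent.FFJ.Spec.Status72

set_option autoImplicit false

noncomputable section

namespace Fermat.Agent.ORD.Spec.Final72

open Fermat.Agent.ORD.Spec.Status72 Fermat.Agent.ORD.Spec.Spec40 Fermat.Agent.ORD.Spec.GeoLite40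

/-- `FlatTorsion` (the S19 conclusion for all `k`) from the open contracts of programme FFJ. -/
theorem flatTorsion_of_ffj (hF : Fermat.Agent.FFJ.Spec.Status72.OpenContracts)
    (p : ℕ) [Fact p.Prime] (M : ℕ) [NeZero M] (hpM : ¬ p ∣ M) : FlatTorsion p M :=
  fun k => Fermat.Agent.FFJ.Spec.Status72.s19_of_openContracts hF M p hpM k

variable {p : ℕ} {N : ℕ} [NeZero N] {S : Finset ℕ}
  {𝒪 : Type} [CommRing 𝒪] [IsDomain 𝒪] [IsDiscreteValuationRing 𝒪]
  [IsAdicComplete (IsLocalRing.maximalIdeal 𝒪) 𝒪]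
  {θ : CuspForm.heckeAlgebra N 2 (↑S : Set ℕ) →+* IsLocalRing.ResidueField 𝒪}
  {T : Type} [CommRing T] [IsLocalRing T] [IsNoetherianRing T]
  [IsAdicComplete (IsLocalRing.maximalIdeal T) T] [Algebra 𝒪 T] [IsLocalHom (algebraMap 𝒪 T)]
  [Module.Finite 𝒪 T] [Module.Free 𝒪 T]

/-- **S33 from the three remaining inputs** (eigen-package, chapter G, programme FFJ).  The conclusion
is literally the frozen S33. -/
theorem s33_of_remaining (hE : EigenPackageExists) (hgeo : GeoStmtLite)
    (hF : Fermat.Agent.FFJ.Spec.Status72.OpenContracts)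
    [Finite (IsLocalRing.ResidueField 𝒪)] [CharZero 𝒪]
    (hp : p.Prime) (hp2 : p ≠ 2) (hp𝒪 : (p : 𝒪) ∈ IsLocalRing.maximalIdeal 𝒪)
    (hN : p ∣ N ∧ ¬ p ^ 2 ∣ N) (hNS : ∀ q : ℕ, q.Prime → q ∣ N → q ∈ S)
    (H : CuspForm.HeckeGaloisRepDatum N (↑S : Set ℕ) 𝒪 θ T)
    (hres : (GaloisRepAdic.ofResidualGaloisRep H.ρ.residual).IsOrdinaryAt p) :
    H.ρ.IsOrdinaryAt p :=
  Fermat.Agent.ORD.Z.Contracts83.s33_of_eigen hE hgeo
    (fun p _ M _ hpM => flatTorsion_of_ffj hF p M hpM) hp hp2 hp𝒪 hN hNS H hres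

end Fermat.Agent.ORD.Spec.Final72
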