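/-
Programme ORD (S33): **everything but chapter G is closed** (helper72, integrator).

`s33_of_geoPkgStmt` : the literal conclusion of the frozen S33 from the ONE remaining proposition
`GeoTop40.GeoPkgStmt` (chapter G: per-field Cartier packages over a cofinal family of number fields).
Plugged in: `EigenPkg83.eigenPackageExists` (A1 + D1; helper83, helper89, helper90, helper93),
`Contracts83` (old/new point cases; helper83, helper69), `GeoTop40.geoStmtLite_of_pkgs` (helper40,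
helper91, helper20), and programme FFJ through `FFJ/Spec/Geo72.openContracts` (S19 at every level).
-/
import Mathlib
import Fermat.Agent.ORD.Spec.Final72
import Fermat.Agent.ORD.Alg.EigenPkg83
import Fermat.Agent.ORD.Geo.GeoTop40
import Fermat.Agent.FFJ.Spec.Geo72

set_option autoImplicit false

noncomputable section

namespace Fermat.Agent.ORD.Spec.S33Wire72

variable {p : ℕ} {N : ℕ} [NeZero N] {S : Finset ℕ}
  {𝒪 : Type} [CommRing 𝒪] [IsDomain 𝒪] [IsDiscreteValuationRing 𝒪]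
  [IsAdicComplete (IsLocalRing.maximalIdeal 𝒪) 𝒪]
  {θ : CuspForm.heckeAlgebra N 2 (↑S : Set ℕ) →+* IsLocalRing.ResidueField 𝒪}
  {T : Type} [CommRing T] [IsLocalRing T] [IsNoetherianRing T]
  [IsAdicComplete (IsLocalRing.maximalIdeal T) T] [Algebra 𝒪 T] [IsLocalHom (algebraMap 𝒪 T)]
  [Module.Finite 𝒪 T] [Module.Free 𝒪 T]

/-- **S33 from chapter G alone.**  The conclusion is literally the frozen S33. -/
theorem s33_of_geoPkgStmt (hG : Fermat.Agent.ORD.Geo.GeoTop40.GeoPkgStmt)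
    [Finite (IsLocalRing.ResidueField 𝒪)] [CharZero 𝒪]
    (hp : p.Prime) (hp2 : p ≠ 2) (hp𝒪 : (p : 𝒪) ∈ IsLocalRing.maximalIdeal 𝒪)
    (hN : p ∣ N ∧ ¬ p ^ 2 ∣ N) (hNS : ∀ q : ℕ, q.Prime → q ∣ N → q ∈ S)
    (H : CuspForm.HeckeGaloisRepDatum N (↑S : Set ℕ) 𝒪 θ T)
    (hres : (GaloisRepAdic.ofResidualGaloisRep H.ρ.residual).IsOrdinaryAt p) :
    H.ρ.IsOrdinaryAt p :=
  Fermat.Agent.ORD.Spec.Final72.s33_of_remaining
    Fermat.Agent.ORD.Alg.EigenPkg83.eigenPackageExists
    (Fermat.Agent.ORD.Geo.GeoTop40.geoStmtLite_of_pkgs hG)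
    Fermat.Agent.FFJ.Spec.Geo72.openContracts hp hp2 hp𝒪 hN hNS H hres

end Fermat.Agent.ORD.Spec.S33Wire72
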